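import Fermat.Agent.H23.MWE.Interfaces
import Fermat.Agent.H29.FundamentalIdentity

/-!
# P-MW block E, row 915 (MW-E-D-MEM): an ideal of `RatRing` is determined by its divisor

`idealDivisorMem (hI : HolIdealStatement) (hB : BarIsoStatement) : IdealDivisorMemStatement`.

Proof: let `I_T` be the ideal of `ℚ̄ ⊗ RatRing` generated by `1 ⊗ I` and `Ibar` its image in
`BarRing` under the isomorphism `Ψ`.  By `HolIdealStatement` the ideal `Ibar` is the set of all
`h` with `ord_Q h ≥ D' Q` (`Q ≠ P`), and `D' ≤ D` away from `P` because the minima of `D` are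
attained on `I`.  Hence `1 ⊗ f ∈ I_T` as soon as `ord_Q f ≥ D Q` for all `Q ≠ P`, and a
`ℚ`-linear retraction `ℚ̄ → ℚ` gives `f ∈ I`.
-/

set_option autoImplicit false

noncomputable section

open ModularCurve AlgebraicCurve IntermediateField
open scoped TensorProduct

namespace Fermat.Agent.H17.MWE

open Fermat.Agent.H23.MWE
open Fermat.Agent.H92.MW (QQbar)

/-- A function with a single pole has a zero, which is a place different from the pole. -/
theorem dm_exists_place_ne {K F : Type} [Field K] [IsAlgClosed K] [CharZero K] [Field F]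
    [Algebra K F] (t : F) (P : Place K F) (h : SinglePole K t P) :
    ∃ Q : Place K F, Q ≠ P ∧ 0 < Q.ord t := by
  have := h.fin
  obtain ⟨-, hsum⟩ := Fermat.Agent.H29.fundamentalIdentity_zeros t h.trans
  have hpos : 0 < Module.finrank K⟮t⟯ F := Module.finrank_pos
  by_contra hcon
  push Not at hcon
  have hempty : {v : Place K F | 0 < v.ord t} = ∅ := by
    ext v
    simp only [Set.mem_ofPred_eq, Set.mem_empty_iff_false, iff_false, not_lt]
    by_cases hv : v = P
    · rw [hv]; exact h.pole.le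
    · exact hcon v hv
  rw [hempty, finsum_mem_empty] at hsum
  have : (Module.finrank K⟮t⟯ F : ℤ) = 0 := hsum.symm
  omega

/-- A `ℚ`-linear retraction of `ℚ → L`. -/
theorem dm_exists_retraction (L : Type) [Field L] [Algebra ℚ L] :
    ∃ lam : L →ₗ[ℚ] ℚ, lam 1 = 1 := by
  obtain ⟨g, hg⟩ := LinearMap.exists_leftInverse_of_injective (Algebra.linearMap ℚ L)
    (LinearMap.ker_eq_bot.mpr (algebraMap ℚ L).injective)
  refine ⟨g, ?_⟩
  have := LinearMap.congr_fun hg 1
  simpa using this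

/-- **Descent of ideal membership**: if `1 ⊗ f` lies in the ideal of `L ⊗ R` generated by
`1 ⊗ I`, then `f ∈ I`. -/
theorem dm_mem_of_tmul_mem_map (L : Type) [Field L] [Algebra ℚ L] {R : Type} [CommRing R]
    [Algebra ℚ R] (I : Ideal R) (f : R)
    (h : (Algebra.TensorProduct.includeRight : R →ₐ[ℚ] L ⊗[ℚ] R) f ∈
      Ideal.map (Algebra.TensorProduct.includeRight : R →ₐ[ℚ] L ⊗[ℚ] R) I) : f ∈ I := by
  obtain ⟨lam, hlam⟩ := dm_exists_retraction L
  let Λ : L ⊗[ℚ] R →ₗ[ℚ] R :=
    (TensorProduct.lid ℚ R).toLinearMap ∘ₗ (LinearMap.rTensor R lam)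
  have hΛ : ∀ (c : L) (r : R), Λ (c ⊗ₜ[ℚ] r) = lam c • r := by
    intro c r
    simp [Λ]
  -- the key property
  have key : ∀ z ∈ Ideal.map (Algebra.TensorProduct.includeRight : R →ₐ[ℚ] L ⊗[ℚ] R) I,
      ∀ w : L ⊗[ℚ] R, Λ (w * z) ∈ I := by
    intro z hz
    refine Submodule.span_induction (p := fun z _ => ∀ w : L ⊗[ℚ] R, Λ (w * z) ∈ I)
      ?_ ?_ ?_ ?_ hz
    · rintro _ ⟨g, hg, rfl⟩ w
      induction w using TensorProduct.induction_on with
      | zero => simp
      | tmul c r =>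
        have e : (c ⊗ₜ[ℚ] r) * (Algebra.TensorProduct.includeRight : R →ₐ[ℚ] L ⊗[ℚ] R) g
            = c ⊗ₜ[ℚ] (r * g) := by
          simp [Algebra.TensorProduct.includeRight_apply, Algebra.TensorProduct.tmul_mul_tmul]
        rw [e, hΛ]
        exact I.smul_of_tower_mem _ (I.mul_mem_left r hg)
      | add w₁ w₂ h₁ h₂ =>
        rw [add_mul, map_add]
        exact I.add_mem h₁ h₂
    · intro w
      simp
    · intro z₁ z₂ _ _ h₁ h₂ w
      rw [mul_add, map_add]
      exact I.add_mem (h₁ w) (h₂ w)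
    · intro a z _ hz w
      rw [smul_eq_mul, ← mul_assoc]
      exact hz (w * a)
  have h1 := key _ h 1
  rw [one_mul, Algebra.TensorProduct.includeRight_apply, hΛ, hlam, one_smul] at h1
  exact h1

set_option synthInstance.maxHeartbeats 400000 in
set_option maxHeartbeats 1600000 in
/-- **MW-E-D-MEM**: an ideal of `RatRing` is determined by its divisor. -/
theorem idealDivisorMem (hI : HolIdealStatement) (hB : BarIsoStatement) :
    IdealDivisorMemStatement := by
  intro F₀ t P hT I D hD f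
  constructor
  · intro hf
    by_cases hf0 : f = 0
    · exact Or.inl hf0
    · exact Or.inr fun Q hQ => (hD.2 Q hQ).1 f hf hf0
  · rintro (rfl | hord)
    · exact I.zero_mem
    have hSP : SinglePole QQbar (toBar F₀ t) P := ⟨hT.trans_bar, hT.fin_bar, hT.pole, hT.reg⟩
    obtain ⟨Q₀, hQ₀, -⟩ := dm_exists_place_ne _ P hSP
    obtain ⟨Ψ, hΨ, -⟩ := hB F₀ t
    let incl : RatRing F₀ t →ₐ[ℚ] QQbar ⊗[ℚ] RatRing F₀ t :=
      Algebra.TensorProduct.includeRight
    let IT : Ideal (QQbar ⊗[ℚ] RatRing F₀ t) := Ideal.map incl I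
    let Ibar : Ideal (BarRing F₀ t) := Ideal.comap Ψ.symm IT
    have hΨincl : ∀ g : RatRing F₀ t,
        ((Ψ (incl g) : BarRing F₀ t) : FBar F₀) = toBar F₀ (g : ↥F₀) := by
      intro g
      have h1 := hΨ 1 g
      rw [one_smul] at h1
      exact h1
    have hmemI : ∀ g ∈ I, Ψ (incl g) ∈ Ibar := by
      intro g hg
      show Ψ.symm (Ψ (incl g)) ∈ IT
      rw [AlgEquiv.symm_apply_apply]
      exact Ideal.mem_map_of_mem _ hg
    have hne : ∀ g : RatRing F₀ t, g ≠ 0 → Ψ (incl g) ≠ 0 := by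
      intro g hg h0
      have h1 := hΨincl g
      rw [h0] at h1
      have h2 : toBar F₀ (g : ↥F₀) = 0 := h1.symm
      have h3 : (g : ↥F₀) = 0 := (map_eq_zero_iff _ (toBar F₀).injective).mp h2
      exact hg (Subtype.ext h3)
    obtain ⟨f₁, hf₁I, hf₁0, -⟩ := (hD.2 Q₀ hQ₀).2
    have hIbar : Ibar ≠ ⊥ := by
      intro hbot
      have h1 := hmemI f₁ hf₁I
      rw [hbot, Ideal.mem_bot] at h1
      exact hne f₁ hf₁0 h1
    obtain ⟨D', -, -, hmem, -, -, -⟩ := hI QQbar (FBar F₀) (toBar F₀ t) P hSP Ibar hIbar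
    have hD'le : ∀ Q : Place QQbar (FBar F₀), Q ≠ P → D' Q ≤ D Q := by
      intro Q hQ
      obtain ⟨f₀, hf₀I, hf₀0, hf₀ord⟩ := (hD.2 Q hQ).2
      rcases (hmem _).mp (hmemI f₀ hf₀I) with h0 | h
      · exact absurd h0 (hne f₀ hf₀0)
      · have h1 := h Q hQ
        rw [hΨincl, hf₀ord] at h1
        exact h1
    have hfbar : Ψ (incl f) ∈ Ibar := by
      rw [hmem]
      right
      intro Q hQ
      rw [hΨincl]
      exact le_trans (hD'le Q hQ) (hord Q hQ)
    have hfT : incl f ∈ IT := by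
      have h1 : Ψ.symm (Ψ (incl f)) ∈ IT := hfbar
      rwa [AlgEquiv.symm_apply_apply] at h1
    exact dm_mem_of_tmul_mem_map QQbar I f hfT

end Fermat.Agent.H17.MWE
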